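import Mathlib
import Fermat.Agent.SS.Model.GaussBC
import Fermat.Agent.S35.RedN.InstFull
import Fermat.Agent.JT3.Descent.FieldOfDef
import Fermat.Agent.JT3.Descent.ConstDVR
import Fermat.Agent.JT3.Inst.Defs

/-!
# S44 [E1-gauss]: the `ℚ̄`-level Gauss valuation subring of `F̄_N` (helper22)

`A` a valuation subring of `ℚ̄` over a prime `ℓ`, `F̄_N = modularFunctionFieldBar N ⊆ ℚ̄((q))`.

* `s44pg_W A hℓ hℓ0 N : ValuationSubring ↥(modularFunctionFieldBar N)` — the Gauss valuation ring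
  `w_∞ ≥ 0` over `A`: `b ∈ W ↔ gq_IsBdd ↥A ℚ̄ ↑b` (`s44pg_mem_iff`, by `Iff.rfl`), i.e. `b` is a
  quotient `z1 / z2` of series over `A` with `red z2 ≠ 0`;
* `s44pg_isBdd_or_inv` : the valuation-ring property, by descent to a number field `L1`
  (`s44pg_descent`), where `A ∩ L1` is a DVR, and base change of Gauss-boundedness (`ssm_gb_isBdd`);
* `s44pg_const` : a constant `c` lies in `W` iff `c ∈ A`; `s44pg_const_mem_nonunits`;
* `s44pg_nrm` : every `f ≠ 0` is a constant times a `W`-unit (value group = that of `A`);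
* `s44pg_mem_nonunits_iff` : `x ∈ 𝔪_W ↔ x = c · b` with `0 ≠ c ∈ 𝔪_A`, `b ∈ W`;
* `s44pg_of_coeff` : coefficientwise `A`-integral elements lie in `W`.

Prefix `s44pg_`, namespace `Fermat.Agent.S44`.
-/

set_option autoImplicit false
set_option linter.style.haveILetI false

noncomputable section

namespace Fermat.Agent.S44

open ModularCurve IsLocalRing Fermat.Agent.JT3 Fermat.Agent.SS Fermat.Agent.S35

/-- descent of an element of `F̄_N` to a number field -/
theorem s44pg_descent (N : ℕ) [NeZero N] {b : LaurentSeries (AlgebraicClosure ℚ)}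
    (hb : b ∈ modularFunctionFieldBar N) (T : Finset (AlgebraicClosure ℚ)) :
    ∃ (L1 : IntermediateField ℚ (AlgebraicClosure ℚ)) (_ : FiniteDimensional ℚ L1)
      (b1 : LaurentSeries L1), (↑T : Set (AlgebraicClosure ℚ)) ⊆ L1 ∧ b1 ∈ lg_F L1 N ∧
        coeffMap (algebraMap L1 (AlgebraicClosure ℚ)) b1 = b := by
  classical
  have _ : Algebra.IsAlgebraic ℚ (AlgebraicClosure ℚ) := AlgebraicClosure.isAlgebraic ℚ
  obtain ⟨s, hs⟩ := dsc_bc_exists_fg (AlgebraicClosure ℚ) (modularFunctionFieldFull N) hb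
  let L1 : IntermediateField ℚ (AlgebraicClosure ℚ) :=
    IntermediateField.adjoin ℚ ((↑(s ∪ T) : Set (AlgebraicClosure ℚ)))
  have hfin : FiniteDimensional ℚ L1 :=
    IntermediateField.finiteDimensional_adjoin fun x _ =>
      (Algebra.IsAlgebraic.isAlgebraic (R := ℚ) x).isIntegral
  have hsub : (↑(s ∪ T) : Set (AlgebraicClosure ℚ)) ⊆ L1 := IntermediateField.subset_adjoin ℚ _
  obtain ⟨y1, hy1, hy⟩ := hs L1 (fun a ha => hsub (by
    rw [Finset.mem_coe] at ha ⊢
    exact Finset.mem_union_left _ ha))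
  refine ⟨L1, hfin, y1, fun a ha => hsub (by
    rw [Finset.mem_coe] at ha ⊢
    exact Finset.mem_union_right _ ha), ?_, hy⟩
  rw [lg_F_eq_laurentBaseChange]
  exact hy1

section NF

variable {O : Type*} [CommRing O] [IsDomain O] [IsLocalRing O] [WfDvdMonoid O]
variable {K : Type*} [Field K] [Algebra O K] [IsFractionRing O K]

/-- over a DVR: every nonzero quotient is a constant times a Gauss unit -/
theorem s44pg_nrm_nf (π : O) (hπ0 : π ≠ 0) (hπ : maximalIdeal O = Ideal.span {π})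
    {z : LaurentSeries K} (hz : gq_IsQuot O K z) (hz0 : z ≠ 0) :
    ∃ c : K, c ≠ 0 ∧ gq_IsBdd O K (algebraMap K (LaurentSeries K) c * z) ∧
      gq_IsBdd O K (algebraMap K (LaurentSeries K) c * z)⁻¹ := by
  obtain ⟨z1, z2, hz2, h⟩ := hz
  have hinjK : Function.Injective (algebraMap O K) := IsFractionRing.injective O K
  have hinj := gq_coeffMap_injective (K := K) hinjK
  have hz2' : ModularCurve.coeffMap (algebraMap O K) z2 ≠ 0 := by
    intro h0
    exact hz2 (hinj (by rw [h0, map_zero]))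
  have hz1 : z1 ≠ 0 := by
    intro h0
    rw [h0, map_zero] at h
    rcases mul_eq_zero.mp h with h | h
    · exact hz0 h
    · exact hz2' h
  obtain ⟨e1, w1, hw1, hr1⟩ := gq_exists_pow_mul π hπ z1 hz1
  obtain ⟨e2, w2, hw2, hr2⟩ := gq_exists_pow_mul π hπ z2 hz2
  have hc00 : algebraMap O K π ≠ 0 := by
    intro h0
    exact hπ0 (hinjK (by rw [h0, map_zero]))
  obtain ⟨C, hC⟩ : ∃ C : LaurentSeries K, C = algebraMap K (LaurentSeries K) (algebraMap O K π) :=
    ⟨_, rfl⟩
  have hC0 : C ≠ 0 := by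
    rw [hC, Ne, map_eq_zero]
    exact hc00
  have hpow : ∀ e : ℕ, ModularCurve.coeffMap (algebraMap O K)
      (algebraMap O (LaurentSeries O) (π ^ e)) = C ^ e := by
    intro e
    rw [gq_coeffMap_algebraMap, map_pow, map_pow, hC]
  rw [hw1, hw2, map_mul, map_mul, hpow, hpow] at h
  have hcc : algebraMap K (LaurentSeries K) ((algebraMap O K π) ^ e2 * ((algebraMap O K π) ^ e1)⁻¹)
      = C ^ e2 * (C ^ e1)⁻¹ := by
    rw [map_mul, map_inv₀, map_pow, map_pow, hC]
  have key : algebraMap K (LaurentSeries K)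
      ((algebraMap O K π) ^ e2 * ((algebraMap O K π) ^ e1)⁻¹) * z *
        ModularCurve.coeffMap (algebraMap O K) w2 = ModularCurve.coeffMap (algebraMap O K) w1 := by
    rw [hcc]
    have h1 : C ^ e1 ≠ 0 := pow_ne_zero _ hC0
    calc C ^ e2 * (C ^ e1)⁻¹ * z * ModularCurve.coeffMap (algebraMap O K) w2
        = (C ^ e1)⁻¹ * (z * (C ^ e2 * ModularCurve.coeffMap (algebraMap O K) w2)) := by ring
      _ = (C ^ e1)⁻¹ * (C ^ e1 * ModularCurve.coeffMap (algebraMap O K) w1) := by rw [h]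
      _ = ModularCurve.coeffMap (algebraMap O K) w1 := by
          rw [← mul_assoc, inv_mul_cancel₀ h1, one_mul]
  refine ⟨(algebraMap O K π) ^ e2 * ((algebraMap O K π) ^ e1)⁻¹,
    mul_ne_zero (pow_ne_zero _ hc00) (inv_ne_zero (pow_ne_zero _ hc00)),
    ⟨w1, w2, hr2, key⟩, ⟨w2, w1, hr1, ?_⟩⟩
  have hne : algebraMap K (LaurentSeries K)
      ((algebraMap O K π) ^ e2 * ((algebraMap O K π) ^ e1)⁻¹) * z ≠ 0 := by
    refine mul_ne_zero ?_ hz0
    rw [hcc]
    exact mul_ne_zero (pow_ne_zero _ hC0) (inv_ne_zero (pow_ne_zero _ hC0))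
  rw [← key, ← mul_assoc, inv_mul_cancel₀ hne, one_mul]

end NF

section Qbar

variable (A : ValuationSubring (AlgebraicClosure ℚ)) {ℓ : ℕ} (hℓ : A.LiesOverPrime ℓ) (hℓ0 : ℓ ≠ 0)

include hℓ hℓ0

/-- an element of `F̄_N` or its inverse is Gauss-bounded over `A` -/
theorem s44pg_isBdd_or_inv (N : ℕ) [NeZero N] {b : LaurentSeries (AlgebraicClosure ℚ)}
    (hb : b ∈ modularFunctionFieldBar N) :
    gq_IsBdd ↥A (AlgebraicClosure ℚ) b ∨ gq_IsBdd ↥A (AlgebraicClosure ℚ) b⁻¹ := by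
  obtain ⟨L1, hfin, b1, -, hb1, rfl⟩ := s44pg_descent N hb ∅
  haveI : NumberField L1 := { to_charZero := inferInstance, to_finiteDimensional := hfin }
  haveI : IsDiscreteValuationRing ↥(A.comap (algebraMap L1 (AlgebraicClosure ℚ))) :=
    dsc_isDVR_comap_numberField A ℓ hℓ hℓ0 L1
  obtain ⟨π0, hirr⟩ := IsDiscreteValuationRing.exists_irreducible
    ↥(A.comap (algebraMap L1 (AlgebraicClosure ℚ)))
  have hq : gq_IsQuot ↥(A.comap (algebraMap L1 (AlgebraicClosure ℚ))) L1 b1 :=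
    rdn_gf_le_quotField (A.comap (algebraMap L1 (AlgebraicClosure ℚ))) N hb1
  rcases gq_isBdd_or_inv π0 hirr.ne_zero hirr.maximalIdeal_eq hq with h | h
  · exact Or.inl (ssm_gb_isBdd (algebraMap L1 (AlgebraicClosure ℚ))
      (A.comap (algebraMap L1 (AlgebraicClosure ℚ))) A (fun _ => Iff.rfl) h)
  · refine Or.inr ?_
    have := ssm_gb_isBdd (algebraMap L1 (AlgebraicClosure ℚ))
      (A.comap (algebraMap L1 (AlgebraicClosure ℚ))) A (fun _ => Iff.rfl) h
    rwa [map_inv₀] at this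


/-- the Gauss-bounded elements of `F̄_N`, as a subring -/
def s44pg_S (N : ℕ) : Subring ↥(modularFunctionFieldBar N) :=
  (gq_bddSubring ↥A (AlgebraicClosure ℚ)).comap (modularFunctionFieldBar N).val.toRingHom

theorem s44pg_mem_S (N : ℕ) (b : ↥(modularFunctionFieldBar N)) :
    b ∈ s44pg_S A N ↔ gq_IsBdd ↥A (AlgebraicClosure ℚ) (b : LaurentSeries (AlgebraicClosure ℚ)) :=
  Iff.rfl

/-- **the `ℚ̄`-level Gauss valuation subring `w_∞ ≥ 0` of `F̄_N` over `A`** -/
def s44pg_W (N : ℕ) [NeZero N] : ValuationSubring ↥(modularFunctionFieldBar N) where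
  toSubring := s44pg_S A N
  mem_or_inv_mem' := by
    intro b
    rcases s44pg_isBdd_or_inv A hℓ hℓ0 N b.2 with h | h
    · exact Or.inl h
    · refine Or.inr ?_
      change gq_IsBdd ↥A (AlgebraicClosure ℚ)
        ((b⁻¹ : ↥(modularFunctionFieldBar N)) : LaurentSeries (AlgebraicClosure ℚ))
      rwa [IntermediateField.coe_inv]

theorem s44pg_mem_iff (N : ℕ) [NeZero N] (b : ↥(modularFunctionFieldBar N)) :
    b ∈ s44pg_W A hℓ hℓ0 N ↔
      gq_IsBdd ↥A (AlgebraicClosure ℚ) (b : LaurentSeries (AlgebraicClosure ℚ)) :=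
  Iff.rfl

omit hℓ hℓ0 in
/-- a constant is Gauss-bounded iff it lies in `A` -/
theorem s44pg_isBdd_const (c : AlgebraicClosure ℚ) :
    gq_IsBdd ↥A (AlgebraicClosure ℚ)
      (algebraMap (AlgebraicClosure ℚ) (LaurentSeries (AlgebraicClosure ℚ)) c) ↔ c ∈ A := by
  constructor
  · rintro ⟨z1, z2, hz2, h⟩
    -- a coefficient of `z2` is a unit
    obtain ⟨n, hn⟩ : ∃ n : ℤ, residue ↥A (z2.coeff n) ≠ 0 := by
      by_contra hcon
      push Not at hcon
      apply hz2
      ext n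
      simpa using hcon n
    have hu : IsUnit (z2.coeff n) := by
      by_contra hnu
      exact hn ((residue_eq_zero_iff _).2 ((mem_maximalIdeal _).2 hnu))
    have hcoef := congrArg (fun z : LaurentSeries (AlgebraicClosure ℚ) => z.coeff n) h
    simp only [gq_algebraMap_eq_single, HahnSeries.coeff_single_zero_mul] at hcoef
    have h1 : c * ((z2.coeff n : ↥A) : AlgebraicClosure ℚ) = ((z1.coeff n : ↥A) : AlgebraicClosure ℚ) := by
      simpa using hcoef
    obtain ⟨u, hu'⟩ := hu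
    have h2 : c = ((z1.coeff n * (u⁻¹ : (↥A)ˣ) : ↥A) : AlgebraicClosure ℚ) := by
      have hu0 : ((z2.coeff n : ↥A) : AlgebraicClosure ℚ) ≠ 0 := by
        rw [← hu']
        intro h0
        exact u.ne_zero (Subtype.ext h0)
      have h3 : ((u⁻¹ : (↥A)ˣ) : ↥A) * z2.coeff n = 1 := by
        rw [← hu']; exact u.inv_mul
      have h4 : (((u⁻¹ : (↥A)ˣ) : ↥A) : AlgebraicClosure ℚ) * ((z2.coeff n : ↥A) : AlgebraicClosure ℚ) = 1 := by
        have := congrArg (fun x : ↥A => (x : AlgebraicClosure ℚ)) h3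
        simpa using this
      push_cast
      rw [← h1, mul_assoc, mul_comm ((z2.coeff n : ↥A) : AlgebraicClosure ℚ), h4, mul_one]
    rw [h2]
    exact (z1.coeff n * (u⁻¹ : (↥A)ˣ) : ↥A).2
  · intro hc
    have : algebraMap (AlgebraicClosure ℚ) (LaurentSeries (AlgebraicClosure ℚ)) c =
        ModularCurve.coeffMap (algebraMap ↥A (AlgebraicClosure ℚ))
          (algebraMap ↥A (LaurentSeries ↥A) ⟨c, hc⟩) := by
      rw [gq_coeffMap_algebraMap]
      rfl
    rw [this]
    exact gq_isBdd_iota _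

theorem s44pg_const (N : ℕ) [NeZero N] (c : AlgebraicClosure ℚ) :
    algebraMap (AlgebraicClosure ℚ) ↥(modularFunctionFieldBar N) c ∈ s44pg_W A hℓ hℓ0 N ↔ c ∈ A :=
  s44pg_isBdd_const A c


/-- **(nrm)**: the value group of the Gauss valuation is that of the constants -/
theorem s44pg_nrm (N : ℕ) [NeZero N] {f : ↥(modularFunctionFieldBar N)} (hf : f ≠ 0) :
    ∃ c : AlgebraicClosure ℚ, c ≠ 0 ∧
      algebraMap (AlgebraicClosure ℚ) ↥(modularFunctionFieldBar N) c * f ∈ s44pg_W A hℓ hℓ0 N ∧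
      (algebraMap (AlgebraicClosure ℚ) ↥(modularFunctionFieldBar N) c * f)⁻¹ ∈
        s44pg_W A hℓ hℓ0 N := by
  obtain ⟨L1, hfin, f1, -, hf1, hff⟩ := s44pg_descent N f.2 ∅
  have hf10 : f1 ≠ 0 := by
    rintro rfl
    apply hf
    apply Subtype.ext
    rw [← hff, map_zero]
    rfl
  haveI : NumberField L1 := { to_charZero := inferInstance, to_finiteDimensional := hfin }
  haveI : IsDiscreteValuationRing ↥(A.comap (algebraMap L1 (AlgebraicClosure ℚ))) :=
    dsc_isDVR_comap_numberField A ℓ hℓ hℓ0 L1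
  obtain ⟨π0, hirr⟩ := IsDiscreteValuationRing.exists_irreducible
    ↥(A.comap (algebraMap L1 (AlgebraicClosure ℚ)))
  have hq : gq_IsQuot ↥(A.comap (algebraMap L1 (AlgebraicClosure ℚ))) L1 f1 :=
    rdn_gf_le_quotField (A.comap (algebraMap L1 (AlgebraicClosure ℚ))) N hf1
  obtain ⟨c1, hc1, hb, hbi⟩ := s44pg_nrm_nf π0 hirr.ne_zero hirr.maximalIdeal_eq hq hf10
  have hb' := ssm_gb_isBdd (algebraMap L1 (AlgebraicClosure ℚ))
    (A.comap (algebraMap L1 (AlgebraicClosure ℚ))) A (fun _ => Iff.rfl) hb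
  have hbi' := ssm_gb_isBdd (algebraMap L1 (AlgebraicClosure ℚ))
    (A.comap (algebraMap L1 (AlgebraicClosure ℚ))) A (fun _ => Iff.rfl) hbi
  have hmap : coeffMap (algebraMap L1 (AlgebraicClosure ℚ))
      (algebraMap L1 (LaurentSeries L1) c1 * f1) =
      algebraMap (AlgebraicClosure ℚ) (LaurentSeries (AlgebraicClosure ℚ))
        (algebraMap L1 (AlgebraicClosure ℚ) c1) * (f : LaurentSeries (AlgebraicClosure ℚ)) := by
    rw [map_mul, hff, gq_algebraMap_eq_single, gq_algebraMap_eq_single, coeffMap_single]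
  rw [map_inv₀] at hbi'
  rw [hmap] at hb' hbi'
  refine ⟨algebraMap L1 (AlgebraicClosure ℚ) c1, ?_, hb', ?_⟩
  · rwa [Ne, map_eq_zero]
  · change gq_IsBdd ↥A (AlgebraicClosure ℚ)
      (((algebraMap (AlgebraicClosure ℚ) ↥(modularFunctionFieldBar N)
        (algebraMap L1 (AlgebraicClosure ℚ) c1) * f)⁻¹ : ↥(modularFunctionFieldBar N)) :
        LaurentSeries (AlgebraicClosure ℚ))
    rw [IntermediateField.coe_inv]
    exact hbi'

/-- constants in the maximal ideal -/
theorem s44pg_const_mem_nonunits (N : ℕ) [NeZero N] (c : AlgebraicClosure ℚ) :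
    algebraMap (AlgebraicClosure ℚ) ↥(modularFunctionFieldBar N) c ∈
      (s44pg_W A hℓ hℓ0 N).nonunits ↔ c ∈ A.nonunits := by
  rw [ValuationSubring.mem_nonunits_iff_or, ValuationSubring.mem_nonunits_iff_or, map_eq_zero,
    ← map_inv₀, s44pg_const]

/-- **the maximal ideal of the Gauss ring**: non-units are (non-unit constant) · (integral) -/
theorem s44pg_mem_nonunits_iff (N : ℕ) [NeZero N] (x : ↥(modularFunctionFieldBar N)) :
    x ∈ (s44pg_W A hℓ hℓ0 N).nonunits ↔
      ∃ c : AlgebraicClosure ℚ, c ≠ 0 ∧ c ∈ A.nonunits ∧ ∃ b ∈ s44pg_W A hℓ hℓ0 N,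
        x = algebraMap (AlgebraicClosure ℚ) ↥(modularFunctionFieldBar N) c * b := by
  constructor
  · intro hx
    by_cases hx0 : x = 0
    · refine ⟨(ℓ : AlgebraicClosure ℚ), ?_, hℓ, 0, (s44pg_W A hℓ hℓ0 N).zero_mem, ?_⟩
      · exact_mod_cast hℓ0
      · rw [hx0, mul_zero]
    · obtain ⟨c₀, hc₀, hu, hui⟩ := s44pg_nrm A hℓ hℓ0 N hx0
      have hcx : algebraMap (AlgebraicClosure ℚ) ↥(modularFunctionFieldBar N) c₀ ≠ 0 := by
        rwa [Ne, map_eq_zero]
      refine ⟨c₀⁻¹, inv_ne_zero hc₀, ?_, _, hu, ?_⟩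
      · rw [← s44pg_const_mem_nonunits A hℓ hℓ0 N, ValuationSubring.mem_nonunits_iff]
        have e : algebraMap (AlgebraicClosure ℚ) ↥(modularFunctionFieldBar N) c₀⁻¹ =
            x * (algebraMap (AlgebraicClosure ℚ) ↥(modularFunctionFieldBar N) c₀ * x)⁻¹ := by
          rw [map_inv₀, mul_inv]
          field_simp
        rw [e, map_mul]
        have h1 : (s44pg_W A hℓ hℓ0 N).valuation x < 1 :=
          (ValuationSubring.mem_nonunits_iff _).1 hx
        have h2 : (s44pg_W A hℓ hℓ0 N).valuation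
            (algebraMap (AlgebraicClosure ℚ) ↥(modularFunctionFieldBar N) c₀ * x)⁻¹ ≤ 1 :=
          ((s44pg_W A hℓ hℓ0 N).valuation_le_one_iff _).2 hui
        exact lt_of_le_of_lt (mul_le_of_le_one_right' h2) h1
      · rw [map_inv₀, ← mul_assoc, inv_mul_cancel₀ hcx, one_mul]
  · rintro ⟨c, -, hc, b, hb, rfl⟩
    rw [ValuationSubring.mem_nonunits_iff, map_mul]
    have h1 : (s44pg_W A hℓ hℓ0 N).valuation
        (algebraMap (AlgebraicClosure ℚ) ↥(modularFunctionFieldBar N) c) < 1 :=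
      (ValuationSubring.mem_nonunits_iff _).1 ((s44pg_const_mem_nonunits A hℓ hℓ0 N c).2 hc)
    have h2 : (s44pg_W A hℓ hℓ0 N).valuation b ≤ 1 :=
      ((s44pg_W A hℓ hℓ0 N).valuation_le_one_iff _).2 hb
    exact lt_of_le_of_lt (mul_le_of_le_one_right' h2) h1

/-- coefficientwise `A`-integral elements are Gauss-bounded -/
theorem s44pg_of_coeff (N : ℕ) [NeZero N] (b : ↥(modularFunctionFieldBar N))
    (hb : ∀ n : ℤ, (b : LaurentSeries (AlgebraicClosure ℚ)).coeff n ∈ A) :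
    b ∈ s44pg_W A hℓ hℓ0 N := by
  classical
  let y : LaurentSeries ↥A :=
    ⟨fun n => ⟨(b : LaurentSeries (AlgebraicClosure ℚ)).coeff n, hb n⟩, by
      refine (b : LaurentSeries (AlgebraicClosure ℚ)).isPWO_support.mono ?_
      intro n hn
      rw [Function.mem_support] at hn
      rw [HahnSeries.mem_support]
      intro h0
      exact hn (Subtype.ext h0)⟩
  have : (b : LaurentSeries (AlgebraicClosure ℚ)) =
      ModularCurve.coeffMap (algebraMap ↥A (AlgebraicClosure ℚ)) y := by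
    ext n
    rfl
  change gq_IsBdd ↥A (AlgebraicClosure ℚ) (b : LaurentSeries (AlgebraicClosure ℚ))
  rw [this]
  exact gq_isBdd_iota y

end Qbar

end Fermat.Agent.S44
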