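/-
S44 cell [PSI-EIG], abstract core (helper5; prefix `s44pe_`).

`F/K` a function field over an algebraically closed field, `z ∈ Pic⁰(F)[p]`, `g` a semilinear
automorphism with `g • z = k • z`, `k ≢ 1 mod p`, `Wv` a valuation subring of `F` which is
"inertial" for `g` (`g • f - f ∈ 𝔪` for `f ∈ Wv`) and whose value group is that of the constants.
Then `z` is represented by `(D, f)`, `p D = div f`, with `f / h ^ p ≡ 1 mod 𝔪` for some `h`
(`Ψ_w(z) = 0`, depth `≥ 1`).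
-/
import Mathlib
import Fermat.Prelude.Def_AlgebraicCurve_BaseChangeGalois
import Fermat.Agent.S24.Hurwitz.Places

set_option autoImplicit false

namespace Fermat.Agent.S44

open AlgebraicCurve Fermat.Agent.S24

universe u v
variable {K : Type u} {F : Type v} [Field K] [Field F] [Algebra K F]

/-- `(D, f)` represents a `p`-torsion class `z`: `[D] = z` and `p D = div f`. -/
def s44pe_Rep (p : ℕ) (z : Pic0 K F) (D : Divisor.degZero (K := K) (F := F)) (f : F) : Prop :=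
  f ≠ 0 ∧ Pic0.mk D = z ∧ ∀ v : Place K F, (p : ℤ) * (D : Divisor K F) v = v.ord f

/-- depth `≥ 1` at the valuation ring `Wv`: `Ψ_w(z) = 0`. -/
def s44pe_Depth1 (p : ℕ) (Wv : ValuationSubring F) (z : Pic0 K F) : Prop :=
  ∃ (D : Divisor.degZero (K := K) (F := F)) (f h : F), s44pe_Rep p z D f ∧ h ≠ 0 ∧
    f / h ^ p - 1 ∈ Wv.nonunits

/-- every `p`-torsion class is represented -/
theorem s44pe_exists_rep (p : ℕ) (z : Pic0 K F) (hz : p • z = 0) :
    ∃ (D : Divisor.degZero (K := K) (F := F)) (f : F), s44pe_Rep p z D f := by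
  obtain ⟨D, rfl⟩ := Pic0.mk_surjective z
  have h1 : Pic0.mk (p • D) = 0 := hz
  have h2 : (p • D) ∈ (Divisor.principal (K := K) (F := F)).addSubgroupOf
      (Divisor.degZero (K := K) (F := F)) := (QuotientAddGroup.eq_zero_iff _).mp h1
  rw [AddSubgroup.mem_addSubgroupOf] at h2
  obtain ⟨f, hf, hD⟩ := h2
  refine ⟨D, f, hf, rfl, fun v => ?_⟩
  rw [← hD v]
  simp

/-- scaling `f` by a nonzero constant -/
theorem s44pe_Rep.const_mul {p : ℕ} {z : Pic0 K F} {D : Divisor.degZero (K := K) (F := F)} {f : F}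
    (h : s44pe_Rep p z D f) {c : K} (hc : c ≠ 0) : s44pe_Rep p z D (algebraMap K F c * f) := by
  have hc' : algebraMap K F c ≠ 0 := by simpa using hc
  refine ⟨mul_ne_zero hc' h.1, h.2.1, fun v => ?_⟩
  rw [v.ord_mul hc' h.1, hw_ord_algebraMap, zero_add]
  exact h.2.2 v

/-- orders of `g • f` -/
theorem s44pe_ord_smul (g : SemilinearAut K F) (v : Place K F) (f : F) :
    v.ord (g • f) = (g⁻¹ • v).ord f := by
  have h := SemilinearAut.ord_smul g (g⁻¹ • v) f
  rw [smul_inv_smul] at h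
  exact h

/-- principal units form a group -/
theorem s44pe_zpow_sub_one_mem (Wv : ValuationSubring F) {E : F} (hE : E - 1 ∈ Wv.nonunits)
    (a : ℤ) : E ^ a - 1 ∈ Wv.nonunits := by
  have hE0 : E ≠ 0 := by
    rintro rfl
    rw [zero_sub, ValuationSubring.mem_nonunits_iff, Valuation.map_neg, map_one] at hE
    exact lt_irrefl _ hE
  have h1 : Units.mk0 E hE0 ∈ Wv.principalUnitGroup := by
    rw [ValuationSubring.mem_principalUnitGroup_iff]
    exact Wv.mem_nonunits_iff.mp hE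
  have h2 := Wv.principalUnitGroup.zpow_mem h1 a
  rw [ValuationSubring.mem_principalUnitGroup_iff] at h2
  rw [ValuationSubring.mem_nonunits_iff]
  simpa using h2

variable [IsAlgClosed K]

/-- **[PSI-EIG], abstract core.** -/
theorem s44pe_core {p : ℕ} (hp : p.Prime) (z : Pic0 K F) (hz : p • z = 0)
    (hconst : ∀ u : F, u ≠ 0 → (∀ v : Place K F, v.ord u = 0) → ∃ c : K, u = algebraMap K F c)
    (g : SemilinearAut K F) (k : ℕ) (hgz : g • z = k • z) (hk : ¬ (k : ℤ) ≡ 1 [ZMOD (p : ℤ)])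
    (Wv : ValuationSubring F) (hinv : ∀ f ∈ Wv, g • f - f ∈ Wv.nonunits)
    (hnrm : ∀ f : F, f ≠ 0 → ∃ c : K, c ≠ 0 ∧ algebraMap K F c * f ∈ Wv ∧
      (algebraMap K F c * f)⁻¹ ∈ Wv) :
    s44pe_Depth1 p Wv z := by
  obtain ⟨D, f₀, hrep₀⟩ := s44pe_exists_rep p z hz
  obtain ⟨c, hc, hcf, hcf'⟩ := hnrm f₀ hrep₀.1
  have hrep : s44pe_Rep p z D (algebraMap K F c * f₀) := hrep₀.const_mul hc
  generalize algebraMap K F c * f₀ = f at hcf hcf' hrep
  have hf : f ≠ 0 := hrep.1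
  -- the relation `g • D = k • D + div h₀`
  have h1 : Pic0.mk (SemilinearAut.degZeroSMulHom g D) = Pic0.mk (k • D) := by
    rw [← SemilinearAut.pic0_smul_mk, hrep.2.1, hgz, ← hrep.2.1]
    rfl
  have h2 : SemilinearAut.degZeroSMulHom g D - k • D ∈
      (Divisor.principal (K := K) (F := F)).addSubgroupOf (Divisor.degZero (K := K) (F := F)) := by
    have := (QuotientAddGroup.eq (s := (Divisor.principal (K := K) (F := F)).addSubgroupOf
      (Divisor.degZero (K := K) (F := F)))).mp h1.symm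
    rw [neg_add_eq_sub] at this
    exact this
  rw [AddSubgroup.mem_addSubgroupOf] at h2
  obtain ⟨h₀, hh₀, hD₀⟩ := h2
  -- `g • f = const * f ^ k * h₀ ^ p`
  have hgf : g • f ≠ 0 := by simpa using hf
  have hord : ∀ v : Place K F, v.ord (g • f / (f ^ k * h₀ ^ p)) = 0 := by
    intro v
    have e1 : v.ord (g • f) = (p : ℤ) * (D : Divisor K F) (g⁻¹ • v) := by
      rw [s44pe_ord_smul, hrep.2.2]
    have e2 : (D : Divisor K F) (g⁻¹ • v) = k * (D : Divisor K F) v + v.ord h₀ := by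
      have := hD₀ v
      simp only [AddSubgroup.coe_sub, SemilinearAut.coe_degZeroSMulHom, Finsupp.sub_apply,
        SemilinearAut.divisor_smul_apply] at this
      have e3 : ((k • D : Divisor.degZero (K := K) (F := F)) : Divisor K F) v =
          k * (D : Divisor K F) v := by simp
      rw [e3] at this
      linarith
    rw [div_eq_mul_inv, v.ord_mul hgf (inv_ne_zero (mul_ne_zero (pow_ne_zero k hf)
      (pow_ne_zero p hh₀))), v.ord_inv, v.ord_mul (pow_ne_zero k hf) (pow_ne_zero p hh₀),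
      ← zpow_natCast, ← zpow_natCast, v.ord_zpow, v.ord_zpow, e1, e2, ← hrep.2.2 v]
    ring
  obtain ⟨c₀, hc₀⟩ := hconst _ (div_ne_zero hgf (mul_ne_zero (pow_ne_zero k hf)
    (pow_ne_zero p hh₀))) hord
  have hc₀0 : c₀ ≠ 0 := by
    rintro rfl
    rw [map_zero] at hc₀
    exact div_ne_zero hgf (mul_ne_zero (pow_ne_zero k hf) (pow_ne_zero p hh₀)) hc₀
  obtain ⟨c₁, hc₁⟩ := IsAlgClosed.exists_pow_nat_eq c₀ hp.pos
  have hc₁0 : c₁ ≠ 0 := by
    rintro rfl
    rw [zero_pow hp.ne_zero] at hc₁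
    exact hc₀0 hc₁.symm
  -- `h₁ := c₁ h₀`
  have hh₁ : algebraMap K F c₁ * h₀ ≠ 0 := mul_ne_zero (by simpa using hc₁0) hh₀
  have hrel : g • f = f ^ k * (algebraMap K F c₁ * h₀) ^ p := by
    have h3 := (div_eq_iff (mul_ne_zero (pow_ne_zero k hf) (pow_ne_zero p hh₀))).mp hc₀
    rw [h3, mul_pow, ← map_pow, hc₁]
    ring
  generalize algebraMap K F c₁ * h₀ = h₁ at hh₁ hrel
  -- valuations
  have hvf : Wv.valuation f = 1 := by
    have h1 := (Wv.valuation_le_one_iff f).mpr hcf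
    have h2 := (Wv.valuation_le_one_iff f⁻¹).mpr hcf'
    rw [map_inv₀] at h2
    exact le_antisymm h1 ((inv_le_one₀ ((Valuation.pos_iff _).mpr hf)).mp h2)
  have hdiff : Wv.valuation (g • f - f) < 1 := Wv.mem_nonunits_iff.mp (hinv f hcf)
  -- `E := f ^ (k - 1) * h₁ ^ p ≡ 1`
  have hE : f ^ ((k : ℤ) - 1) * h₁ ^ p - 1 ∈ Wv.nonunits := by
    rw [ValuationSubring.mem_nonunits_iff]
    have e : f ^ ((k : ℤ) - 1) * h₁ ^ p - 1 = (g • f - f) * f⁻¹ := by
      rw [hrel, zpow_sub₀ hf, zpow_natCast, zpow_one]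
      field_simp
    rw [e, map_mul, map_inv₀, hvf, inv_one, mul_one]
    exact hdiff
  -- Bezout
  have hcop : IsCoprime ((k : ℤ) - 1) (p : ℤ) := by
    rw [isCoprime_comm, Prime.coprime_iff_not_dvd (Nat.prime_iff_prime_int.mp hp)]
    intro hdvd
    exact hk (Int.modEq_iff_dvd.mpr (by simpa [sub_eq_neg_add, dvd_neg] using (dvd_neg.mpr hdvd)))
  obtain ⟨a, b, hab⟩ := hcop
  refine ⟨D, f, h₁ ^ (-a) * f ^ b, hrep, mul_ne_zero (zpow_ne_zero _ hh₁) (zpow_ne_zero _ hf), ?_⟩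
  have key : f / (h₁ ^ (-a) * f ^ b) ^ p = (f ^ ((k : ℤ) - 1) * h₁ ^ p) ^ a := by
    have eX : (f ^ ((k : ℤ) - 1)) ^ a = f ^ (a * ((k : ℤ) - 1)) := by rw [← zpow_mul, mul_comm]
    have eY : (f ^ b) ^ p = f ^ (b * (p : ℤ)) := by rw [← zpow_natCast, ← zpow_mul]
    have eH : (h₁ ^ (-a)) ^ p = ((h₁ ^ p) ^ a)⁻¹ := by
      rw [← zpow_natCast (h₁ ^ (-a)), ← zpow_mul, ← zpow_natCast h₁ p, ← zpow_mul, neg_mul,
        zpow_neg, mul_comm]
    have ef : f = f ^ (a * ((k : ℤ) - 1)) * f ^ (b * (p : ℤ)) := by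
      rw [← zpow_add₀ hf, hab, zpow_one]
    have hX0 : f ^ (a * ((k : ℤ) - 1)) ≠ 0 := zpow_ne_zero _ hf
    have hY0 : f ^ (b * (p : ℤ)) ≠ 0 := zpow_ne_zero _ hf
    have hH0 : (h₁ ^ p) ^ a ≠ 0 := zpow_ne_zero _ (pow_ne_zero _ hh₁)
    rw [mul_pow, eY, eH, mul_zpow, eX]
    nth_rewrite 1 [ef]
    field_simp
  rw [key]
  exact s44pe_zpow_sub_one_mem Wv hE a

end Fermat.Agent.S44
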