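/-
S44 cell [PSI-EIG], abstract core, `T`-variant (helper5; prefix `s44pe_`).

The core `s44pe_core` applied to the valuation ring `Wv.comap T` for a `K`-algebra endomorphism `T`
of `F` commuting with the semilinear automorphism `g` (in use: `T = id` for `w_∞`, `T = W̄_p` the
Atkin–Lehner involution for `w_0 = w_∞ ∘ W̄_p`), with the conclusion in the shape of the frame:
`T f = h ^ p * (1 + x)`, `x ∈ 𝔪_{Wv}`.
-/
import Fermat.Agent.S44.PsiEig.Core

set_option autoImplicit false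

namespace Fermat.Agent.S44

open AlgebraicCurve Fermat.Agent.S24

universe u v
variable {K : Type u} {F : Type v} [Field K] [Field F] [Algebra K F]

/-- nonunits of a pulled-back valuation ring -/
theorem s44pe_mem_comap_nonunits (Wv : ValuationSubring F) (T : F →+* F) (x : F) :
    x ∈ (Wv.comap T).nonunits ↔ T x ∈ Wv.nonunits := by
  rw [ValuationSubring.mem_nonunits_iff_or, ValuationSubring.mem_nonunits_iff_or,
    ValuationSubring.mem_comap, map_inv₀, map_eq_zero]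

variable [IsAlgClosed K]

/-- **[PSI-EIG], abstract core, `T`-variant**: `T f ≡ h ^ p mod 𝔪_{Wv}`. -/
theorem s44pe_core_T {p : ℕ} (hp : p.Prime) (z : Pic0 K F) (hz : p • z = 0)
    (hconst : ∀ u : F, u ≠ 0 → (∀ v : Place K F, v.ord u = 0) → ∃ c : K, u = algebraMap K F c)
    (g : SemilinearAut K F) (k : ℕ) (hgz : g • z = k • z) (hk : ¬ (k : ℤ) ≡ 1 [ZMOD (p : ℤ)])
    (Wv : ValuationSubring F) (hinv : ∀ f ∈ Wv, g • f - f ∈ Wv.nonunits)
    (hnrm : ∀ f : F, f ≠ 0 → ∃ c : K, c ≠ 0 ∧ algebraMap K F c * f ∈ Wv ∧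
      (algebraMap K F c * f)⁻¹ ∈ Wv)
    (T : F →ₐ[K] F) (hT : ∀ f : F, T (g • f) = g • T f) :
    ∃ (D : Divisor.degZero (K := K) (F := F)) (f h : F), s44pe_Rep p z D f ∧ h ≠ 0 ∧
      T f / h ^ p - 1 ∈ Wv.nonunits := by
  have hinv' : ∀ f ∈ Wv.comap (T : F →+* F), g • f - f ∈ (Wv.comap (T : F →+* F)).nonunits := by
    intro f hf
    rw [s44pe_mem_comap_nonunits]
    have h1 : (T : F →+* F) (g • f - f) = g • T f - T f := by
      rw [map_sub]
      exact congrArg (· - T f) (hT f)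
    rw [h1]
    exact hinv _ hf
  have hnrm' : ∀ f : F, f ≠ 0 → ∃ c : K, c ≠ 0 ∧ algebraMap K F c * f ∈ Wv.comap (T : F →+* F) ∧
      (algebraMap K F c * f)⁻¹ ∈ Wv.comap (T : F →+* F) := by
    intro f hf
    have hTf : T f ≠ 0 := by
      rw [Ne, map_eq_zero]
      exact hf
    obtain ⟨c, hc, h1, h2⟩ := hnrm (T f) hTf
    have h3 : (T : F →+* F) (algebraMap K F c * f) = algebraMap K F c * T f := by
      show T (algebraMap K F c * f) = _
      rw [map_mul, AlgHom.commutes]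
    refine ⟨c, hc, ?_, ?_⟩
    · rw [ValuationSubring.mem_comap, h3]
      exact h1
    · rw [ValuationSubring.mem_comap, map_inv₀, h3]
      exact h2
  obtain ⟨D, f, h, hrep, hh, hmem⟩ :=
    s44pe_core hp z hz hconst g k hgz hk (Wv.comap (T : F →+* F)) hinv' hnrm'
  refine ⟨D, f, T h, hrep, ?_, ?_⟩
  · rw [Ne, map_eq_zero]
    exact hh
  · rw [s44pe_mem_comap_nonunits] at hmem
    have h4 : (T : F →+* F) (f / h ^ p - 1) = T f / T h ^ p - 1 := by
      show T (f / h ^ p - 1) = _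
      rw [map_sub, map_div₀, map_pow, map_one]
    rw [h4] at hmem
    exact hmem

/-- the same in the shape of the frame: `T f = h ^ p * (1 + x)`, `x ∈ 𝔪_{Wv}`. -/
theorem s44pe_core_frame {p : ℕ} (hp : p.Prime) (z : Pic0 K F) (hz : p • z = 0)
    (hconst : ∀ u : F, u ≠ 0 → (∀ v : Place K F, v.ord u = 0) → ∃ c : K, u = algebraMap K F c)
    (g : SemilinearAut K F) (k : ℕ) (hgz : g • z = k • z) (hk : ¬ (k : ℤ) ≡ 1 [ZMOD (p : ℤ)])
    (Wv : ValuationSubring F) (hinv : ∀ f ∈ Wv, g • f - f ∈ Wv.nonunits)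
    (hnrm : ∀ f : F, f ≠ 0 → ∃ c : K, c ≠ 0 ∧ algebraMap K F c * f ∈ Wv ∧
      (algebraMap K F c * f)⁻¹ ∈ Wv)
    (T : F →ₐ[K] F) (hT : ∀ f : F, T (g • f) = g • T f) :
    ∃ f : F, (f ≠ 0 ∧ ∃ D : Divisor.degZero (K := K) (F := F), Pic0.mk D = z ∧
        ∀ v : Place K F, (p : ℤ) * (D : Divisor K F) v = v.ord f) ∧
      ∃ h x : F, h ≠ 0 ∧ x ∈ Wv.nonunits ∧ T f = h ^ p * (1 + x) := by
  obtain ⟨D, f, h, hrep, hh, hmem⟩ :=
    s44pe_core_T hp z hz hconst g k hgz hk Wv hinv hnrm T hT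
  refine ⟨f, ⟨hrep.1, D, hrep.2.1, hrep.2.2⟩, h, T f / h ^ p - 1, hh, hmem, ?_⟩
  have hhp : h ^ p ≠ 0 := pow_ne_zero _ hh
  field_simp
  ring

end Fermat.Agent.S44
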