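/-
S44 cell [PSI-EIG] (helper5; prefix `s44pe_`): the hypothesis `hconst` of `s44pe_core` for
`Fbar N = modularFunctionFieldBar N` over `ℚ̄`: a function without zeros and poles is constant.
-/
import Fermat.Agent.S44.PsiEig.CoreT
import Fermat.Agent.JT3.Riemann.FBar

set_option autoImplicit false

namespace Fermat.Agent.S44

open AlgebraicCurve Fermat.Agent.S24 Fermat.Agent.JT3

/-- a function on `X₀(N)` over `ℚ̄` without zeros and poles is constant -/
theorem s44pe_hconst (N : ℕ) [NeZero N] (u : Fbar N) (hu : u ≠ 0)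
    (h : ∀ v : Place Kbar (Fbar N), v.ord u = 0) : ∃ c : Kbar, u = algebraMap Kbar (Fbar N) c :=
  rt_const_of_forall_mem (rt_isSepGen_jBar N) u
    (fun v => (hw_mem_iff_ord_nonneg v hu).mpr (h v).ge)

end Fermat.Agent.S44
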