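/-
S44 cell [PSI-EIG] = [E1], the frame-side glue (helper5; prefix `s44pe_`).

`s44_PsiEig_stmt (s44_frame2 P M hpM)` from the abstract core `s44pe_core_frame`, helper24's
`s44c_chiRam` and the instance facts about the Gauss valuation ring `Winf` of `F̄_N` over `A`
(taken as HYPOTHESES here; they are proved in `PsiEig/Gauss.lean`, `PsiEig/Inv.lean`):

* `hmem`  : `b ∈ Winf → s44f_Int2 N A b`;
* `hcA`   : `c ∈ A → (c : F̄_N) ∈ Winf`;
* `hnrm`  : every `f ≠ 0` is a constant times a unit of `Winf`;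
* `hinv`  : `σ` in the inertia group of `A` acts trivially on the residue field of `Winf`;
* `hW`    : the Atkin–Lehner involution `W̄_p` commutes with the action of `σ` in inertia.
-/
import Fermat.Agent.S44.PsiEig.Const
import Fermat.Agent.S44.Frame2
import Fermat.Agent.S44.ChiRam.Main

set_option autoImplicit false

namespace Fermat.Agent.S44

open ModularCurve AlgebraicCurve Fermat.Agent.JT3 Fermat.Agent.S35 Fermat.Agent.SS

section abstract

universe u v
variable {K : Type u} {F : Type v} [Field K] [Field F] [Algebra K F]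

/-- a nonunit of `Wv` is a nonunit constant of `A` times an element of `Wv`, if the value group of
`Wv` is that of the constants. -/
theorem s44pe_nonunits_factor (A : ValuationSubring K) (Wv : ValuationSubring F)
    (hcA : ∀ c ∈ A, algebraMap K F c ∈ Wv)
    (hnrm : ∀ f : F, f ≠ 0 → ∃ c : K, c ≠ 0 ∧ algebraMap K F c * f ∈ Wv ∧
      (algebraMap K F c * f)⁻¹ ∈ Wv)
    {π : K} (hπ0 : π ≠ 0) (hπ : π ∈ A.nonunits) {x : F} (hx : x ∈ Wv.nonunits) :
    ∃ c : K, c ≠ 0 ∧ c ∈ A.nonunits ∧ ∃ b ∈ Wv, x = algebraMap K F c * b := by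
  by_cases hx0 : x = 0
  · exact ⟨π, hπ0, hπ, 0, Wv.zero_mem, by rw [hx0, mul_zero]⟩
  obtain ⟨c, hc, h1, h2⟩ := hnrm x hx0
  have hc' : algebraMap K F c ≠ 0 := by simpa using hc
  refine ⟨c⁻¹, inv_ne_zero hc, ?_, algebraMap K F c * x, h1, ?_⟩
  · rw [ValuationSubring.inv_mem_nonunits_iff]
    right
    intro hcA'
    have h3 : x⁻¹ ∈ Wv := by
      have h4 : x⁻¹ = algebraMap K F c * (algebraMap K F c * x)⁻¹ := by
        rw [mul_inv, ← mul_assoc, mul_inv_cancel₀ hc', one_mul]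
      rw [h4]
      exact Wv.mul_mem _ _ (hcA c hcA') h2
    rcases (ValuationSubring.mem_nonunits_iff_or Wv).mp hx with h | h
    · exact hx0 h
    · exact h h3
  · rw [map_inv₀, ← mul_assoc, inv_mul_cancel₀ hc', one_mul]

end abstract

/-- **[E1] glue**: `s44_PsiEig_stmt` for the frame (version 2) from the instance facts about the
Gauss valuation ring `Winf` of `F̄_{Mp}` over `A`. -/
theorem s44pe_psiEig_of (P : FreyPackage) (M : ℕ) [NeZero M] [NeZero (M * P.p)]
    (hpM : ¬ P.p ∣ M)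
    (Winf : ValuationSubring (modularFunctionFieldBar (M * P.p)))
    (hmem : ∀ b : modularFunctionFieldBar (M * P.p), b ∈ Winf →
      s44f_Int2 (M * P.p) (s44f_A P.p P.pp) b)
    (hcA : ∀ c ∈ s44f_A P.p P.pp,
      algebraMap (AlgebraicClosure ℚ) (modularFunctionFieldBar (M * P.p)) c ∈ Winf)
    (hnrm : ∀ f : modularFunctionFieldBar (M * P.p), f ≠ 0 → ∃ c : AlgebraicClosure ℚ, c ≠ 0 ∧
      algebraMap (AlgebraicClosure ℚ) (modularFunctionFieldBar (M * P.p)) c * f ∈ Winf ∧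
      (algebraMap (AlgebraicClosure ℚ) (modularFunctionFieldBar (M * P.p)) c * f)⁻¹ ∈ Winf)
    (hinv : ∀ σ ∈ (s44f_A P.p P.pp).inertiaSubgroupIn ℚ,
      ∀ f ∈ Winf, arithmeticGalois (modularFunctionFieldFull (M * P.p)) σ • f - f ∈ Winf.nonunits)
    (hW : ∀ σ ∈ (s44f_A P.p P.pp).inertiaSubgroupIn ℚ,
      ∀ f : modularFunctionFieldBar (M * P.p),
        ssm_al_Wbar M P.p P.pp hpM (arithmeticGalois (modularFunctionFieldFull (M * P.p)) σ • f) =
          arithmeticGalois (modularFunctionFieldFull (M * P.p)) σ • ssm_al_Wbar M P.p P.pp hpM f) :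
    s44_PsiEig_stmt (s44_frame2 P M hpM) := by
  have : Fact P.p.Prime := ⟨P.pp⟩
  have hp2 : P.p ≠ 2 := by
    have := P.hp5
    omega
  obtain ⟨σ₀, hσ₀, k₀, hk₀, hk1⟩ := s44c_chiRam P.p hp2 (s44f_A P.p P.pp)
    (s44f_A_liesOver P.p P.pp) (s44f_zeta P.p P.pp) (s44f_zeta_spec P.p P.pp)
  have hp0 : ((P.p : ℕ) : AlgebraicClosure ℚ) ≠ 0 := by
    exact_mod_cast P.hp0
  have hpA : ((P.p : ℕ) : AlgebraicClosure ℚ) ∈ (s44f_A P.p P.pp).nonunits :=
    s44f_A_liesOver P.p P.pp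
  intro z hz hchi
  have hgz : arithmeticGalois (modularFunctionFieldFull (M * P.p)) σ₀ • z = k₀ • z :=
    hchi σ₀ hσ₀ k₀ hk₀
  -- the common step
  have key : ∀ T : modularFunctionFieldBar (M * P.p) →ₐ[AlgebraicClosure ℚ]
      modularFunctionFieldBar (M * P.p),
      (∀ f, T (arithmeticGalois (modularFunctionFieldFull (M * P.p)) σ₀ • f) =
        arithmeticGalois (modularFunctionFieldFull (M * P.p)) σ₀ • T f) →
      ∃ c : s44_Qb, c ≠ 0 ∧ c ∈ (s44f_A P.p P.pp).nonunits ∧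
        s44f_Depth2 (M * P.p) (s44f_A P.p P.pp) P.p c T z := by
    intro T hT
    obtain ⟨f, ⟨hf0, D, hD, hord⟩, h, x, hh, hx, hTf⟩ :=
      s44pe_core_frame P.pp z hz (s44pe_hconst (M * P.p))
        (arithmeticGalois (modularFunctionFieldFull (M * P.p)) σ₀) k₀ hgz hk1 Winf
        (hinv σ₀ hσ₀) hnrm T hT
    obtain ⟨c, hc0, hcA', b, hb, hxb⟩ :=
      s44pe_nonunits_factor (s44f_A P.p P.pp) Winf hcA hnrm hp0 hpA hx
    refine ⟨c, hc0, hcA', f, ⟨hf0, D, hD, hord⟩, h, b, hh, hmem b hb, ?_⟩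
    rw [hTf, hxb]
  exact ⟨key (AlgHom.id _ _) (fun f => rfl), key (ssm_al_Wbar M P.p P.pp hpM) (hW σ₀ hσ₀)⟩

end Fermat.Agent.S44
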