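/-
S44 cell [PSI-EIG] = [E1], instance facts (helper28; prefix `s44pe_`).

For `A : ValuationSubring ℚ̄` and `σ` in the inertia group of `A`:

* `s44pe_inv_bdd`   : if `x ∈ ℚ̄((q))` is Gauss-bounded over `A` (`gq_IsBdd ↥A ℚ̄ x`), then
  `σ x - x` (coefficientwise action) is Gauss-bounded with residue `0`;
* `s44pe_inv`       : (inv) for any valuation subring `W` of `F̄_N` whose membership is
  Gauss-boundedness: `f ∈ W → σ • f - f ∈ W.nonunits`;
* `s44pe_Wbar_smul` : the Atkin–Lehner endomorphism `W̄_q` of `F̄_{M q}` commutes with the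
  arithmetic Galois action;
* `s44pe_inv_comap`, `s44pe_nrm_comap` : (inv), (nrm) for `W.comap W̄`.
(`hconst` is helper5's `s44pe_hconst` of PsiEig/Const.lean.)
-/
import Mathlib
import Fermat.Prelude.Def_ModularCurve_ArithmeticGalois
import Fermat.Prelude.Def_FLTPrelim_Ramification
import Fermat.Agent.JT3.Bridge.GaussVal
import Fermat.Agent.SS.Model.AL
import Fermat.Agent.S55.LevelFields

set_option autoImplicit false
set_option linter.unusedSectionVars false

noncomputable section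

namespace Fermat.Agent.S44

open ModularCurve AlgebraicCurve IsLocalRing
open Fermat.Agent.JT3 Fermat.Agent.S24 Fermat.Agent.SS Fermat.Agent.S55

local notation "Qb" => AlgebraicClosure ℚ

/-! ### abstract form: a coefficient automorphism acting trivially on the residue field -/

section Abs

variable {O : Type*} [CommRing O] [IsDomain O] [IsLocalRing O]
variable {K : Type*} [Field K] [Algebra O K] [IsFractionRing O K]

theorem s44pe_iota_s (σ : K →+* K) (s : O →+* O)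
    (hs : ∀ a, algebraMap O K (s a) = σ (algebraMap O K a)) (z : LaurentSeries O) :
    coeffMap (algebraMap O K) (coeffMap s z) = coeffMap σ (coeffMap (algebraMap O K) z) := by
  rw [coeffMap_coeffMap, coeffMap_coeffMap]
  exact coeffMap_congr (RingHom.ext fun a => hs a) z

theorem s44pe_red_s (s : O →+* O) (hres : ∀ a, residue O (s a) = residue O a)
    (z : LaurentSeries O) :
    coeffMap (residue O) (coeffMap s z) = coeffMap (residue O) z := by
  rw [coeffMap_coeffMap]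
  exact coeffMap_congr (RingHom.ext fun a => hres a) z

/-- **(inv), series level, abstract.** -/
theorem s44pe_inv_bdd_abs (σ : K →+* K) (s : O →+* O)
    (hs : ∀ a, algebraMap O K (s a) = σ (algebraMap O K a))
    (hres : ∀ a, residue O (s a) = residue O a) (x : LaurentSeries K)
    (hx : gq_IsBdd O K x) :
    ∃ h : gq_IsBdd O K (coeffMap σ x - x), gq_res O K ⟨coeffMap σ x - x, h⟩ = 0 := by
  obtain ⟨z1, z2, hz2, hz⟩ := hx
  have hσeq : coeffMap σ x * coeffMap (algebraMap O K) (coeffMap s z2) =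
      coeffMap (algebraMap O K) (coeffMap s z1) := by
    rw [s44pe_iota_s σ s hs, s44pe_iota_s σ s hs, ← map_mul, hz]
  have hy : (coeffMap σ x - x) * coeffMap (algebraMap O K) (z2 * coeffMap s z2) =
      coeffMap (algebraMap O K) (coeffMap s z1 * z2 - z1 * coeffMap s z2) := by
    rw [map_mul, map_sub, map_mul, map_mul, ← hz, ← hσeq]
    ring
  have hw2 : coeffMap (residue O) (z2 * coeffMap s z2) ≠ 0 := by
    rw [map_mul, s44pe_red_s s hres]
    exact mul_ne_zero hz2 hz2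
  have hw1 : coeffMap (residue O) (coeffMap s z1 * z2 - z1 * coeffMap s z2) = 0 := by
    rw [map_sub, map_mul, map_mul, s44pe_red_s s hres, s44pe_red_s s hres, sub_self]
  have hb : gq_IsBdd O K (coeffMap σ x - x) := ⟨_, _, hw2, hy⟩
  refine ⟨hb, ?_⟩
  rw [gq_res_eq ⟨coeffMap σ x - x, hb⟩ hw2 hy, hw1, zero_div]

end Abs

/-! ### the action of an inertia element on `A((q))` -/

section Sigma

variable (A : ValuationSubring Qb) (σ : Qb ≃ₐ[ℚ] Qb)

theorem s44pe_sigma_sub_mem (hσ : σ ∈ A.inertiaSubgroupIn ℚ) (a : Qb) (ha : a ∈ A) :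
    σ a - a ∈ A.nonunits :=
  ((tl_mem_inertiaSubgroupIn_iff A σ).1 hσ).2 a ha

theorem s44pe_sigma_mem (hσ : σ ∈ A.inertiaSubgroupIn ℚ) (a : Qb) (ha : a ∈ A) : σ a ∈ A := by
  have h1 : σ a - a ∈ A := A.nonunits_subset (s44pe_sigma_sub_mem A σ hσ a ha)
  have h2 : σ a = (σ a - a) + a := by ring
  rw [h2]
  exact A.add_mem _ _ h1 ha

/-- `σ` restricted to `A`. -/
def s44pe_sigmaA (hσ : σ ∈ A.inertiaSubgroupIn ℚ) : ↥A →+* ↥A where
  toFun a := ⟨σ (a : Qb), s44pe_sigma_mem A σ hσ a a.2⟩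
  map_one' := Subtype.ext (map_one σ)
  map_mul' a b := Subtype.ext (map_mul σ (a : Qb) (b : Qb))
  map_zero' := Subtype.ext (map_zero σ)
  map_add' a b := Subtype.ext (map_add σ (a : Qb) (b : Qb))

theorem s44pe_residue_sigmaA (hσ : σ ∈ A.inertiaSubgroupIn ℚ) (a : ↥A) :
    residue ↥A (s44pe_sigmaA A σ hσ a) = residue ↥A a := by
  rw [← sub_eq_zero, ← map_sub, residue_eq_zero_iff, ← ValuationSubring.coe_mem_nonunits_iff]
  exact s44pe_sigma_sub_mem A σ hσ a a.2

/-- **(inv), series level.** -/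
theorem s44pe_inv_bdd (hσ : σ ∈ A.inertiaSubgroupIn ℚ) (x : LaurentSeries Qb)
    (hx : gq_IsBdd ↥A Qb x) :
    ∃ h : gq_IsBdd ↥A Qb (coeffMap (σ : Qb →+* Qb) x - x),
      gq_res ↥A Qb ⟨coeffMap (σ : Qb →+* Qb) x - x, h⟩ = 0 :=
  s44pe_inv_bdd_abs (σ : Qb →+* Qb) (s44pe_sigmaA A σ hσ) (fun _ => rfl)
    (s44pe_residue_sigmaA A σ hσ) x hx

end Sigma

/-! ### (inv) for a Gauss valuation subring of `F̄_N` -/

section Inv

variable (N : ℕ) (A : ValuationSubring Qb)

/-- **(inv)**: `σ • f - f` is a nonunit for `f` Gauss-bounded, `σ` in the inertia group. -/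
theorem s44pe_inv (W : ValuationSubring (Fbar N))
    (hmem : ∀ b : Fbar N, b ∈ W ↔ gq_IsBdd ↥A Qb (b : LaurentSeries Qb))
    (σ : Qb ≃ₐ[ℚ] Qb) (hσ : σ ∈ A.inertiaSubgroupIn ℚ) (f : Fbar N) (hf : f ∈ W) :
    arithmeticGalois (modularFunctionFieldFull N) σ • f - f ∈ W.nonunits := by
  obtain ⟨h, hres⟩ := s44pe_inv_bdd A σ hσ (f : LaurentSeries Qb) ((hmem f).1 hf)
  rw [ValuationSubring.mem_nonunits_iff_or]
  by_contra hcon
  rw [not_or, not_not] at hcon
  obtain ⟨hy0, hyinv⟩ := hcon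
  have h1 := (hmem _).1 hyinv
  have hy0' : ((⟨_, h⟩ : ↥(gq_bddSubring ↥A Qb)) : LaurentSeries Qb) ≠ 0 := by
    intro h0
    apply hy0
    apply Subtype.ext
    exact h0
  exact gq_res_ne_zero_of_inv ⟨_, h⟩ h1 hy0' hres

end Inv

/-! ### Atkin–Lehner commutes with the arithmetic Galois action -/

section AL

variable (M q : ℕ) [NeZero M] [NeZero q] (hq : q.Prime) (hqM : ¬ q ∣ M)

theorem s44pe_coe_iotaF_self (N : ℕ) [NeZero N] (y : lg_F Qb N) :
    ((ssm_al_iotaF Qb N y : Fbar N) : LaurentSeries Qb) = (y : LaurentSeries Qb) := by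
  rw [ssm_al_coe_iotaF]
  show coeffMap (algebraMap Qb Qb) (y : LaurentSeries Qb) = _
  rw [show algebraMap Qb Qb = RingHom.id Qb from rfl, coeffMap_id]

theorem s44pe_smul_iotaF (N : ℕ) [NeZero N] (σ : Qb ≃ₐ[ℚ] Qb) (y : lg_F Qb N) :
    arithmeticGalois (modularFunctionFieldFull N) σ • (ssm_al_iotaF Qb N y) =
      ssm_al_iotaF Qb N (ssm_al_coeffMapF Qb (σ : Qb →+* Qb) N y) := by
  apply Subtype.ext
  rw [coe_arithmeticGalois_smul, s44pe_coe_iotaF_self, s44pe_coe_iotaF_self, ssm_al_coe_coeffMapF]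

theorem s44pe_exists_iotaF (N : ℕ) [NeZero N] (f : Fbar N) :
    ∃ y : lg_F Qb N, ssm_al_iotaF Qb N y = f := by
  have hf : (f : LaurentSeries Qb) ∈ lg_F Qb N := by
    rw [lg_F_eq_bar]
    exact f.2
  refine ⟨⟨f, hf⟩, Subtype.ext ?_⟩
  rw [s44pe_coe_iotaF_self]

/-- **`W̄` is defined over `ℚ`.** -/
theorem s44pe_Wbar_smul (σ : Qb ≃ₐ[ℚ] Qb) (f : Fbar (M * q)) :
    ssm_al_Wbar M q hq hqM (arithmeticGalois (modularFunctionFieldFull (M * q)) σ • f) =
      arithmeticGalois (modularFunctionFieldFull (M * q)) σ • ssm_al_Wbar M q hq hqM f := by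
  obtain ⟨y, rfl⟩ := s44pe_exists_iotaF (M * q) f
  rw [s44pe_smul_iotaF, ← ssm_al_W_spec, ssm_al_W_coeffMapF, ← s44pe_smul_iotaF, ssm_al_W_spec]

end AL

/-! ### transport along a field homomorphism -/

section Comap

variable {F F' : Type*} [Field F] [Field F']

theorem s44pe_mem_comap_nonunits_iff (W : ValuationSubring F') (φ : F →+* F') (x : F) :
    x ∈ (W.comap φ).nonunits ↔ φ x ∈ W.nonunits := by
  rw [ValuationSubring.mem_nonunits_iff_or, ValuationSubring.mem_nonunits_iff_or,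
    ValuationSubring.mem_comap, map_inv₀, map_eq_zero]

end Comap

section InvComap

variable (M q : ℕ) [NeZero M] [NeZero q] (hq : q.Prime) (hqM : ¬ q ∣ M)
  (A : ValuationSubring Qb)

/-- (inv) for `w₀ = w_∞ ∘ W̄`. -/
theorem s44pe_inv_comap (W : ValuationSubring (Fbar (M * q)))
    (hmem : ∀ b : Fbar (M * q), b ∈ W ↔ gq_IsBdd ↥A Qb (b : LaurentSeries Qb))
    (σ : Qb ≃ₐ[ℚ] Qb) (hσ : σ ∈ A.inertiaSubgroupIn ℚ) (f : Fbar (M * q))
    (hf : f ∈ W.comap (ssm_al_Wbar M q hq hqM : Fbar (M * q) →+* Fbar (M * q))) :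
    arithmeticGalois (modularFunctionFieldFull (M * q)) σ • f - f ∈
      (W.comap (ssm_al_Wbar M q hq hqM : Fbar (M * q) →+* Fbar (M * q))).nonunits := by
  rw [s44pe_mem_comap_nonunits_iff, map_sub]
  show ssm_al_Wbar M q hq hqM _ - ssm_al_Wbar M q hq hqM f ∈ _
  rw [s44pe_Wbar_smul]
  exact s44pe_inv (M * q) A W hmem σ hσ _ hf

/-- (nrm) for `w₀ = w_∞ ∘ W̄`. -/
theorem s44pe_nrm_comap (W : ValuationSubring (Fbar (M * q)))
    (hnrm : ∀ f : Fbar (M * q), f ≠ 0 → ∃ c : Qb, c ≠ 0 ∧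
      algebraMap Qb (Fbar (M * q)) c * f ∈ W ∧ (algebraMap Qb (Fbar (M * q)) c * f)⁻¹ ∈ W)
    (f : Fbar (M * q)) (hf : f ≠ 0) :
    ∃ c : Qb, c ≠ 0 ∧
      algebraMap Qb (Fbar (M * q)) c * f ∈
        W.comap (ssm_al_Wbar M q hq hqM : Fbar (M * q) →+* Fbar (M * q)) ∧
      (algebraMap Qb (Fbar (M * q)) c * f)⁻¹ ∈
        W.comap (ssm_al_Wbar M q hq hqM : Fbar (M * q) →+* Fbar (M * q)) := by
  have hWf : ssm_al_Wbar M q hq hqM f ≠ 0 := by
    rw [Ne, map_eq_zero]
    exact hf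
  obtain ⟨c, hc, h1, h2⟩ := hnrm _ hWf
  refine ⟨c, hc, ?_, ?_⟩
  · rw [ValuationSubring.mem_comap]
    show ssm_al_Wbar M q hq hqM _ ∈ W
    rw [map_mul, AlgHom.commutes]
    exact h1
  · rw [ValuationSubring.mem_comap]
    show ssm_al_Wbar M q hq hqM _ ∈ W
    rw [map_inv₀, map_mul, AlgHom.commutes]
    exact h2

end InvComap

end Fermat.Agent.S44
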