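/-
S44 cell [PSI-EIG] = [E1], CLOSED for the concrete frame (version 2) (helper28).

`s44pe_psiEig : s44_PsiEig_stmt (s44_frame2 P M hpM)` — a `χ`-eigen `p`-torsion class of
`J₀(M p)` has depth `≥ 1` at both Gauss valuations `w_∞`, `w₀ = w_∞ ∘ W̄_p`.

Assembly of: helper5's glue `s44pe_psiEig_of` (PsiEig/Bridge.lean: abstract core `s44pe_core` +
helper24's `s44c_chiRam`), helper22's `ℚ̄`-level Gauss valuation ring `s44pg_W` (PsiEig/Gauss.lean:
membership = `gq_IsBdd`, constants, (nrm)), and the inertia facts of PsiEig/Inv.lean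
(`s44pe_inv` = (inv), `s44pe_Wbar_smul` = Atkin–Lehner is defined over `ℚ`).
-/
import Fermat.Agent.S44.PsiEig.Bridge
import Fermat.Agent.S44.PsiEig.Gauss
import Fermat.Agent.S44.PsiEig.Inv

set_option autoImplicit false

namespace Fermat.Agent.S44

open ModularCurve AlgebraicCurve Fermat.Agent.JT3 Fermat.Agent.SS

/-- **[E1] = [PSI-EIG]** for the frame (version 2). -/
theorem s44pe_psiEig (P : FreyPackage) (M : ℕ) [NeZero M] [NeZero (M * P.p)]
    (hpM : ¬ P.p ∣ M) : s44_PsiEig_stmt (s44_frame2 P M hpM) :=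
  s44pe_psiEig_of P M hpM
    (s44pg_W (s44f_A P.p P.pp) (s44f_A_liesOver P.p P.pp) P.hp0 (M * P.p))
    (fun b hb => (s44pg_mem_iff (s44f_A P.p P.pp) (s44f_A_liesOver P.p P.pp) P.hp0 (M * P.p) b).1 hb)
    (fun c hc => (s44pg_const (s44f_A P.p P.pp) (s44f_A_liesOver P.p P.pp) P.hp0 (M * P.p) c).2 hc)
    (fun f hf => s44pg_nrm (s44f_A P.p P.pp) (s44f_A_liesOver P.p P.pp) P.hp0 (M * P.p) hf)
    (fun σ hσ f hf => s44pe_inv (M * P.p) (s44f_A P.p P.pp) _
      (fun b => s44pg_mem_iff (s44f_A P.p P.pp) (s44f_A_liesOver P.p P.pp) P.hp0 (M * P.p) b)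
      σ hσ f hf)
    (fun σ _ f => s44pe_Wbar_smul M P.p P.pp hpM σ f)

end Fermat.Agent.S44
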