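/-
S44 cell [PSI-EIG] = [E1] (helper5; prefix `s44pe_`): the Atkin–Lehner endomorphism `W̄_q` of
`F̄_{M q}` (`ssm_al_Wbar`) commutes with the coefficientwise action of `Gal(ℚ̄/ℚ)`
(hypothesis `hW` of `s44pe_psiEig_of`), from `ssm_al_W_coeffMapF` at `L = ℚ̄`.
-/
import Fermat.Agent.SS.Model.AL
import Fermat.Prelude.Def_ModularCurve_ArithmeticGalois

set_option autoImplicit false

namespace Fermat.Agent.S44

open ModularCurve AlgebraicCurve Fermat.Agent.JT3 Fermat.Agent.SS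

/-- the coefficient embedding `ℚ̄((X)) → ℚ̄((X))` over `L = ℚ̄` is the identity -/
theorem s44pe_iota_self (x : LaurentSeries (AlgebraicClosure ℚ)) :
    ssm_al_iota (AlgebraicClosure ℚ) x = x := by
  show coeffMap (algebraMap (AlgebraicClosure ℚ) (AlgebraicClosure ℚ)) x = x
  rw [show algebraMap (AlgebraicClosure ℚ) (AlgebraicClosure ℚ) = RingHom.id _ from rfl,
    coeffMap_id]

/-- **`W̄` commutes with Galois.** -/
theorem s44pe_Wbar_galois (M q : ℕ) [NeZero M] [NeZero q] (hq : q.Prime) (hqM : ¬ q ∣ M)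
    (σ : AlgebraicClosure ℚ ≃ₐ[ℚ] AlgebraicClosure ℚ) (f : modularFunctionFieldBar (M * q)) :
    ssm_al_Wbar M q hq hqM (arithmeticGalois (modularFunctionFieldFull (M * q)) σ • f) =
      arithmeticGalois (modularFunctionFieldFull (M * q)) σ • ssm_al_Wbar M q hq hqM f := by
  have hx : (f : LaurentSeries (AlgebraicClosure ℚ)) ∈ lg_F (AlgebraicClosure ℚ) (M * q) := by
    rw [lg_F_eq_bar]
    exact f.2
  set x' : lg_F (AlgebraicClosure ℚ) (M * q) := ⟨f, hx⟩ with hx'
  have h1 : ssm_al_iotaF (AlgebraicClosure ℚ) (M * q) x' = f :=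
    Subtype.ext (s44pe_iota_self _)
  have h2 : ssm_al_iotaF (AlgebraicClosure ℚ) (M * q)
      (ssm_al_coeffMapF (AlgebraicClosure ℚ) (σ : AlgebraicClosure ℚ →+* AlgebraicClosure ℚ)
        (M * q) x') = arithmeticGalois (modularFunctionFieldFull (M * q)) σ • f := by
    apply Subtype.ext
    rw [ssm_al_coe_iotaF, s44pe_iota_self, ssm_al_coe_coeffMapF, coe_arithmeticGalois_smul]
  rw [← h2, ← ssm_al_W_spec, ssm_al_W_coeffMapF, ← h1, ← ssm_al_W_spec]
  apply Subtype.ext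
  rw [ssm_al_coe_iotaF, s44pe_iota_self, ssm_al_coe_coeffMapF, coe_arithmeticGalois_smul,
    ssm_al_coe_iotaF, s44pe_iota_self]

end Fermat.Agent.S44
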